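/-
GR/CB ("CoreBuild") : construction of `Core M p` (interface of the p-adic layer S30/S31) from the
deliverables of the GAL blocks (AN + DESC, KL, ESR, HK).   Shared definitions, sorry free.
-/
import Mathlib
import Fermat.Agent.GAL.AN.Package
import Fermat.Agent.GR.Adic.Core

set_option autoImplicit false

open ModularCurve AlgebraicCurve CongruenceSubgroup
open Fermat.Agent.GAL
open scoped MatrixGroups

noncomputable section

namespace Fermat.Agent.GR.CB

/-- the units of `ℚ̄((q))` -/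
abbrev UU : Type := (LaurentSeries Qb)ˣ

/-- the units lying in the function field `FL Qb M` -/
def FLU (M : ℕ) : Subgroup UU where
  carrier := {u | (u : LaurentSeries Qb) ∈ FL Qb M}
  mul_mem' := by
    intro a b ha hb
    show ((a * b : UU) : LaurentSeries Qb) ∈ FL Qb M
    rw [Units.val_mul]
    exact mul_mem ha hb
  one_mem' := by
    show ((1 : UU) : LaurentSeries Qb) ∈ FL Qb M
    rw [Units.val_one]
    exact one_mem _
  inv_mem' := by
    intro a ha
    show ((a⁻¹ : UU) : LaurentSeries Qb) ∈ FL Qb M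
    rw [Units.val_inv_eq_inv_val]
    exact inv_mem ha

theorem mem_FLU {M : ℕ} {u : UU} : u ∈ FLU M ↔ (u : LaurentSeries Qb) ∈ FL Qb M := Iff.rfl

/-- Galois action on units -/
def galU (σ : GQ) : UU →* UU := Units.map (galS σ : LaurentSeries Qb →* LaurentSeries Qb)

@[simp] theorem coe_galU (σ : GQ) (u : UU) :
    ((galU σ u : UU) : LaurentSeries Qb) = galS σ (u : LaurentSeries Qb) := rfl

/-- the multiplicative Hecke operator on units -/
def heckeU (ℓ : ℕ) [NeZero ℓ] : UU →* UU := Units.map (heckeS Qb ℓ)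

@[simp] theorem coe_heckeU (ℓ : ℕ) [NeZero ℓ] (u : UU) :
    ((heckeU ℓ u : UU) : LaurentSeries Qb) = heckeS Qb ℓ (u : LaurentSeries Qb) := rfl

/-- the character of an element of `Van`, as a function -/
def chrFun {M n : ℕ} (𝒜 : AnPackage M n) (u : UU) (hu : u ∈ 𝒜.Van) :
    Additive (Gamma0 M) →+ ZMod n :=
  ((Multiplicative.toAdd (𝒜.chr ⟨u, hu⟩) : HPar M n) : Additive (Gamma0 M) →+ ZMod n)

/-- **Contract with AN**: a family of analytic packages for the exponents `p ^ m`, compatible with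
`u ↦ u ^ p`  (if `H ∘ γ = e(P(γ)/p^(m+1)) H` then `H^p ∘ γ = e(P(γ)/p^m) H^p`). -/
structure AnFamily (M p : ℕ) where
  An : ∀ m : ℕ, AnPackage M (p ^ m)
  pow_mem : ∀ (m : ℕ) (u : UU), u ∈ (An (m + 1)).Van → u ^ p ∈ (An m).Van
  chr_pow : ∀ (m : ℕ) (u : UU) (hu : u ∈ (An (m + 1)).Van) (γ : Additive (Gamma0 M)),
    chrFun (An m) (u ^ p) (pow_mem m u hu) γ =
      ZMod.castHom (pow_dvd_pow p (Nat.le_succ m)) (ZMod (p ^ m)) (chrFun (An (m + 1)) u hu γ)

/-- the group generated by all Galois conjugates of the analytic Kummer elements -/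
def VV {M p : ℕ} (𝒜 : AnFamily M p) : Subgroup UU :=
  Subgroup.closure {u | ∃ (σ : GQ) (m : ℕ), ∃ v ∈ (𝒜.An m).Van, u = galU σ v}

/-- **Contract with KL**: statement of `key_lemma` of `GAL/Master.lean` at level `M`. -/
def KeyLemma (M : ℕ) : Prop :=
  ∀ (n ℓ : ℕ) [Fact ℓ.Prime], ¬ ℓ ∣ M → ¬ ℓ ∣ n → ∀ (A : ValuationSubring Qb),
    A.LiesOverPrime ℓ → ∀ R₀ : LaurentSeries A, redA A R₀ = 1 → IsKum Qb M n (inclA A R₀) →
      inclA A R₀ ∈ FL Qb M

/-- **Contract with KL**: statement of `good_rep` of `GAL/Master.lean` at level `M`. -/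
def GoodRep (M : ℕ) : Prop :=
  ∀ (n ℓ : ℕ) [Fact ℓ.Prime], ¬ ℓ ∣ M → ¬ ℓ ∣ n → ∀ (A : ValuationSubring Qb),
    A.LiesOverPrime ℓ → ∀ h : LaurentSeries Qb, IsKum Qb M n h →
      ∃ g ∈ FL Qb M, g ≠ 0 ∧ ∃ h₀ : LaurentSeries A, IsUnit h₀ ∧ h = g * inclA A h₀

/-- `Hom_par(Γ₀(M), ℤ)` -/
abbrev LL0 (M : ℕ) : Submodule ℤ (Additive (Gamma0 M) →+ ℤ) :=
  Period.parabolicHoms ℤ (Gamma0 M) ℤ

/-- **Contract with HK** (HK4c): `Hom_par(Γ₀(M), ℤ)` is a finite free `ℤ`-module on which the Hecke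
algebra acts faithfully through `heckeCoh`. -/
structure HKInput (M : ℕ) [NeZero M] : Prop where
  free : Module.Free ℤ (LL0 M)
  finite : Module.Finite ℤ (LL0 M)
  exists_ι : ∃ ι : CuspForm.heckeAlgebra M 2 (Adic.badSet M) →+* Module.End ℤ (LL0 M),
    Function.Injective ι ∧
    ∀ (ℓ : ℕ) (hℓ : ℓ.Prime) (hℓM : ¬ ℓ ∣ M) (x : LL0 M),
      ((ι (CuspForm.heckeAlgebra.T hℓ hℓM (Adic.not_mem_badSet hℓM)) x : LL0 M) :
        Additive (Gamma0 M) →+ ℤ) = heckeCoh M ℓ (x : Additive (Gamma0 M) →+ ℤ)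

/-- the ambient group `ℚ̄((q))ˣ / FLˣ`, written additively -/
def AA (M : ℕ) : Type := Additive (UU ⧸ FLU M)

instance (M : ℕ) : AddCommGroup (AA M) := inferInstanceAs (AddCommGroup (Additive (UU ⧸ FLU M)))

/-- the class of a unit -/
def cls (M : ℕ) (u : UU) : AA M := Additive.ofMul (QuotientGroup.mk u : UU ⧸ FLU M)

end Fermat.Agent.GR.CB
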