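/-
GR/CB : the ambient quotient `AA M = ℚ̄((q))ˣ / FLˣ` with its Galois and Hecke operators.
-/
import Mathlib
import Fermat.Agent.GR.CB.Defs

set_option autoImplicit false

open ModularCurve AlgebraicCurve CongruenceSubgroup
open Fermat.Agent.GAL
open scoped MatrixGroups

noncomputable section

namespace Fermat.Agent.GR.CB

theorem galS_mem_FL (M : ℕ) (σ : GQ) {x : LaurentSeries Qb} (hx : x ∈ FL Qb M) :
    galS σ x ∈ FL Qb M :=
  coeffMap_mem_laurentBaseChange σ hx

theorem galU_mem_FLU (M : ℕ) (σ : GQ) {u : UU} (hu : u ∈ FLU M) : galU σ u ∈ FLU M :=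
  galS_mem_FL M σ hu

theorem galS_one (x : LaurentSeries Qb) : galS 1 x = x := by
  show coeffMap ((1 : GQ) : Qb →+* Qb) x = x
  have h := coeffMap_congr (f := ((1 : GQ) : Qb →+* Qb)) (g := RingHom.id Qb)
    (RingHom.ext fun a => rfl) x
  rw [h, coeffMap_id]

theorem galS_mul (σ τ : GQ) (x : LaurentSeries Qb) : galS (σ * τ) x = galS σ (galS τ x) := by
  show coeffMap ((σ * τ : GQ) : Qb →+* Qb) x = coeffMap (σ : Qb →+* Qb) (coeffMap (τ : Qb →+* Qb) x)
  rw [coeffMap_coeffMap]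
  exact coeffMap_congr (RingHom.ext fun a => rfl) x

theorem galU_one (u : UU) : galU 1 u = u := Units.ext (galS_one _)

theorem galU_mul (σ τ : GQ) (u : UU) : galU (σ * τ) u = galU σ (galU τ u) :=
  Units.ext (galS_mul σ τ _)

theorem cls_mul (M : ℕ) (u v : UU) : cls M (u * v) = cls M u + cls M v := rfl

theorem cls_one (M : ℕ) : cls M 1 = 0 := rfl

theorem cls_inv (M : ℕ) (u : UU) : cls M u⁻¹ = - cls M u := rfl

theorem cls_pow (M : ℕ) (u : UU) (k : ℕ) : cls M (u ^ k) = k • cls M u := rfl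

theorem cls_eq_zero_iff {M : ℕ} {u : UU} : cls M u = 0 ↔ u ∈ FLU M := by
  show Additive.ofMul (QuotientGroup.mk u : UU ⧸ FLU M) = 0 ↔ _
  rw [ofMul_eq_zero, QuotientGroup.eq_one_iff]

theorem cls_surjective (M : ℕ) : Function.Surjective (cls M) := by
  intro x
  obtain ⟨u, hu⟩ := QuotientGroup.mk_surjective (Additive.toMul x)
  exact ⟨u, by rw [cls, hu]; rfl⟩

/-- an endomorphism of `UU` preserving `FLU M` induces an endomorphism of `AA M`
(junk value `0` otherwise) -/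
def indA (M : ℕ) (f : UU →* UU) : Module.End ℤ (AA M) := by
  classical
  exact if h : FLU M ≤ (FLU M).comap f then
    AddMonoidHom.toIntLinearMap (M := AA M) (M₂ := AA M)
      (MonoidHom.toAdditive (QuotientGroup.map (FLU M) (FLU M) f h))
  else 0

theorem indA_cls (M : ℕ) (f : UU →* UU) (h : ∀ u ∈ FLU M, f u ∈ FLU M) (u : UU) :
    indA M f (cls M u) = cls M (f u) := by
  have h' : FLU M ≤ (FLU M).comap f := h
  rw [indA, dif_pos h']
  rfl

/-- the Galois action on `AA M` -/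
def gA (M : ℕ) : GQ →* Module.End ℤ (AA M) where
  toFun σ := indA M (galU σ)
  map_one' := by
    ext x
    obtain ⟨u, rfl⟩ := cls_surjective M x
    rw [indA_cls M _ (fun u hu => galU_mem_FLU M 1 hu), galU_one]
    rfl
  map_mul' σ τ := by
    ext x
    obtain ⟨u, rfl⟩ := cls_surjective M x
    rw [Module.End.mul_apply, indA_cls M _ (fun u hu => galU_mem_FLU M _ hu),
      indA_cls M _ (fun u hu => galU_mem_FLU M _ hu),
      indA_cls M _ (fun u hu => galU_mem_FLU M _ hu), galU_mul]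

theorem gA_cls (M : ℕ) (σ : GQ) (u : UU) : gA M σ (cls M u) = cls M (galU σ u) :=
  indA_cls M _ (fun _ hu => galU_mem_FLU M σ hu) u

/-- the Hecke operators on `AA M` (junk for `ℓ = 0`) -/
def tA (M ℓ : ℕ) : Module.End ℤ (AA M) :=
  if h : ℓ = 0 then 0 else
    haveI : NeZero ℓ := ⟨h⟩
    indA M (heckeU ℓ)

theorem tA_cls (M ℓ : ℕ) [NeZero ℓ] (h : ∀ u ∈ FLU M, heckeU ℓ u ∈ FLU M) (u : UU) :
    tA M ℓ (cls M u) = cls M (heckeU ℓ u) := by
  rw [tA, dif_neg (NeZero.ne ℓ)]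
  exact indA_cls M _ h u

/-- the classes of the elements of `VV` -/
def SS {M p : ℕ} (𝒜 : AnFamily M p) : Submodule ℤ (AA M) :=
  AddSubgroup.toIntSubmodule (M := AA M)
    (Subgroup.toAddSubgroup ((VV 𝒜).map (QuotientGroup.mk' (FLU M))))

theorem mem_SS {M p : ℕ} {𝒜 : AnFamily M p} {x : AA M} :
    x ∈ SS 𝒜 ↔ ∃ u ∈ VV 𝒜, cls M u = x := by
  show Additive.toMul x ∈ (VV 𝒜).map (QuotientGroup.mk' (FLU M)) ↔ _
  rw [Subgroup.mem_map]
  rfl

end Fermat.Agent.GR.CB
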