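/-
GR/CB-1 : elementary API of `IsKum`.
-/
import Mathlib
import Fermat.Agent.GR.CB.Quot
import Fermat.Agent.S24.FF.Basic

set_option autoImplicit false

open ModularCurve AlgebraicCurve CongruenceSubgroup
open Fermat.Agent.GAL
open scoped MatrixGroups

noncomputable section

namespace Fermat.Agent.GR.CB

theorem isKum_of_mem_FL (M n : ℕ) {h : LaurentSeries Qb} (hh : h ∈ FL Qb M) (h0 : h ≠ 0) :
    IsKum Qb M n h := by
  refine ⟨h0, pow_mem hh n, fun P => ?_⟩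
  have : (⟨h ^ n, pow_mem hh n⟩ : FL Qb M) = (⟨h, hh⟩ : FL Qb M) ^ n := rfl
  rw [this, Fermat.Agent.S24.FF.ord_pow]
  exact Dvd.intro _ rfl

theorem IsKum.mul' {M n : ℕ} {h h' : LaurentSeries Qb} (H : IsKum Qb M n h)
    (H' : IsKum Qb M n h') : IsKum Qb M n (h * h') := by
  obtain ⟨h0, hf, hd⟩ := H
  obtain ⟨h0', hf', hd'⟩ := H'
  have hmem : (h * h') ^ n ∈ FL Qb M := by rw [mul_pow]; exact mul_mem hf hf'
  refine ⟨mul_ne_zero h0 h0', hmem, fun P => ?_⟩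
  have : (⟨(h * h') ^ n, hmem⟩ : FL Qb M) = ⟨h ^ n, hf⟩ * ⟨h' ^ n, hf'⟩ :=
    Subtype.ext (mul_pow h h' n)
  have e1 : (⟨h ^ n, hf⟩ : FL Qb M) ≠ 0 := fun e => pow_ne_zero n h0 (congrArg Subtype.val e)
  have e2 : (⟨h' ^ n, hf'⟩ : FL Qb M) ≠ 0 := fun e => pow_ne_zero n h0' (congrArg Subtype.val e)
  rw [this, P.ord_mul e1 e2]
  exact dvd_add (hd P) (hd' P)

theorem IsKum.inv' {M n : ℕ} {h : LaurentSeries Qb} (H : IsKum Qb M n h) :
    IsKum Qb M n h⁻¹ := by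
  obtain ⟨h0, hf, hd⟩ := H
  have hmem : h⁻¹ ^ n ∈ FL Qb M := by rw [inv_pow]; exact inv_mem hf
  refine ⟨inv_ne_zero h0, hmem, fun P => ?_⟩
  have : (⟨h⁻¹ ^ n, hmem⟩ : FL Qb M) = (⟨h ^ n, hf⟩ : FL Qb M)⁻¹ :=
    Subtype.ext (inv_pow h n)
  rw [this, P.ord_inv]
  exact (dvd_neg).2 (hd P)

theorem IsKum.of_dvd {M n n' : ℕ} (hn : n ∣ n') {h : LaurentSeries Qb} (H : IsKum Qb M n h) :
    IsKum Qb M n' h := by
  obtain ⟨h0, hf, hd⟩ := H
  obtain ⟨c, rfl⟩ := hn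
  have hmem : h ^ (n * c) ∈ FL Qb M := by rw [pow_mul]; exact pow_mem hf c
  refine ⟨h0, hmem, fun P => ?_⟩
  have : (⟨h ^ (n * c), hmem⟩ : FL Qb M) = (⟨h ^ n, hf⟩ : FL Qb M) ^ c :=
    Subtype.ext (pow_mul h n c)
  rw [this, Fermat.Agent.S24.FF.ord_pow]
  obtain ⟨d, hd'⟩ := hd P
  rw [hd']
  exact ⟨d, by push_cast; ring⟩

theorem IsKum.galS' {M n : ℕ} (σ : GQ) {h : LaurentSeries Qb} (H : IsKum Qb M n h) :
    IsKum Qb M n (galS σ h) := by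
  obtain ⟨h0, hf, hd⟩ := H
  have hmem : galS σ h ^ n ∈ FL Qb M := by rw [← map_pow]; exact galS_mem_FL M σ hf
  have hinj : Function.Injective (galS σ) := (galS σ).injective
  refine ⟨fun e => h0 (hinj (by rw [e, map_zero])), hmem, fun P => ?_⟩
  set g := arithmeticGalois (L := Qb) (modularFunctionFieldFull M) σ with hg
  have e1 : (⟨galS σ h ^ n, hmem⟩ : FL Qb M) = g • (⟨h ^ n, hf⟩ : FL Qb M) :=
    Subtype.ext (by
      rw [coe_arithmeticGalois_smul]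
      exact (map_pow (galS σ) h n).symm)
  have e2 : P = g • (g⁻¹ • P) := by rw [smul_inv_smul]
  rw [e1, e2, SemilinearAut.ord_smul]
  exact hd _

end Fermat.Agent.GR.CB
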