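/-
GR/CB-3 : the group `VV` generated by the Galois conjugates of the analytic Kummer elements.
-/
import Mathlib
import Fermat.Agent.GR.CB.Quot
import Fermat.Agent.GR.CB.Kum
import Fermat.Agent.GAL.ESR.Main

set_option autoImplicit false

open ModularCurve AlgebraicCurve CongruenceSubgroup
open Fermat.Agent.GAL
open scoped MatrixGroups

noncomputable section

namespace Fermat.Agent.GR.CB

section VV
variable {M p : ℕ} (𝒜 : AnFamily M p)

theorem Van_le_VV (m : ℕ) : (𝒜.An m).Van ≤ VV 𝒜 := by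
  intro u hu
  exact Subgroup.subset_closure ⟨1, m, u, hu, (galU_one u).symm⟩

theorem FLU_le_VV : FLU M ≤ VV 𝒜 := by
  intro u hu
  exact Van_le_VV 𝒜 0 ((𝒜.An 0).FL_le u hu)

theorem galU_mem_VV (σ : GQ) {u : UU} (hu : u ∈ VV 𝒜) : galU σ u ∈ VV 𝒜 := by
  induction hu using Subgroup.closure_induction with
  | mem x hx =>
    obtain ⟨τ, m, v, hv, rfl⟩ := hx
    exact Subgroup.subset_closure ⟨σ * τ, m, v, hv, (galU_mul σ τ v).symm⟩
  | one => rw [map_one]; exact one_mem _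
  | mul x y _ _ hx hy => rw [map_mul]; exact mul_mem hx hy
  | inv x _ hx => rw [map_inv]; exact inv_mem hx

include 𝒜 in
theorem heckeU_mem_FLU (ℓ : ℕ) [NeZero ℓ] (hℓ : ℓ.Prime) (hℓM : ¬ ℓ ∣ M) {u : UU}
    (hu : u ∈ FLU M) : heckeU ℓ u ∈ FLU M := by
  have hu0 : u ∈ (𝒜.An 0).Van := (𝒜.An 0).FL_le u hu
  have h1 : heckeU ℓ u ∈ (𝒜.An 0).Van := (𝒜.An 0).hecke_mem ℓ hℓ hℓM u hu0
  have hsub : Subsingleton (ZMod (p ^ 0)) := by
    rw [pow_zero]; infer_instance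
  have hsub2 : Subsingleton (HPar M (p ^ 0)) := by
    refine ⟨fun a b => ?_⟩
    apply Subtype.ext
    ext γ
    exact Subsingleton.elim _ _
  have hsub3 : Subsingleton (Multiplicative (HPar M (p ^ 0))) := hsub2
  exact ((𝒜.An 0).chr_eq_one_iff ⟨heckeU ℓ u, h1⟩).1 (Subsingleton.elim _ _)

theorem heckeU_galU (ℓ : ℕ) [NeZero ℓ] (σ : GQ) (u : UU) :
    heckeU ℓ (galU σ u) = galU σ (heckeU ℓ u) :=
  Units.ext (galS_heckeS σ ℓ (u : LaurentSeries Qb)).symm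

theorem heckeU_mem_VV (ℓ : ℕ) [NeZero ℓ] (hℓ : ℓ.Prime) (hℓM : ¬ ℓ ∣ M) {u : UU}
    (hu : u ∈ VV 𝒜) : heckeU ℓ u ∈ VV 𝒜 := by
  induction hu using Subgroup.closure_induction with
  | mem x hx =>
    obtain ⟨τ, m, v, hv, rfl⟩ := hx
    rw [heckeU_galU]
    exact Subgroup.subset_closure ⟨τ, m, heckeU ℓ v, (𝒜.An m).hecke_mem ℓ hℓ hℓM v hv, rfl⟩
  | one => rw [map_one]; exact one_mem _
  | mul x y _ _ hx hy => rw [map_mul]; exact mul_mem hx hy
  | inv x _ hx => rw [map_inv]; exact inv_mem hx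

theorem exists_isKum_of_mem_VV {u : UU} (hu : u ∈ VV 𝒜) :
    ∃ m : ℕ, IsKum Qb M (p ^ m) (u : LaurentSeries Qb) := by
  induction hu using Subgroup.closure_induction with
  | mem x hx =>
    obtain ⟨τ, m, v, hv, rfl⟩ := hx
    exact ⟨m, IsKum.galS' τ ((𝒜.An m).isKum v hv)⟩
  | one =>
    exact ⟨0, by rw [Units.val_one]; exact isKum_of_mem_FL M _ (one_mem _) one_ne_zero⟩
  | mul x y _ _ hx hy =>
    obtain ⟨m, hm⟩ := hx
    obtain ⟨m', hm'⟩ := hy
    refine ⟨max m m', ?_⟩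
    rw [Units.val_mul]
    exact IsKum.mul' (IsKum.of_dvd (pow_dvd_pow p (le_max_left m m')) hm)
      (IsKum.of_dvd (pow_dvd_pow p (le_max_right m m')) hm')
  | inv x _ hx =>
    obtain ⟨m, hm⟩ := hx
    refine ⟨m, ?_⟩
    rw [Units.val_inv_eq_inv_val]
    exact IsKum.inv' hm

end VV

end Fermat.Agent.GR.CB
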