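/-
GR/CB, package CB-4 : Eichler–Shimura relation and triviality of inertia, elementwise on `VV`.
-/
import Mathlib
import Fermat.Agent.GR.CB.Quot
import Fermat.Agent.GR.CB.VV
import Fermat.Agent.GAL.ESR.Main

set_option autoImplicit false

open ModularCurve AlgebraicCurve CongruenceSubgroup
open Fermat.Agent.GAL
open scoped MatrixGroups

noncomputable section

namespace Fermat.Agent.GR.CB

/-- decomposition `u = g * h₁` of an element of `VV` with `g ∈ FLU M` and `h₁ ∈ VV` the image of a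
unit of `A((q))`. -/
theorem exists_good_decomp {M p : ℕ} (_hp : p.Prime) (𝒜 : AnFamily M p) (hR : GoodRep M)
    (ℓ : ℕ) (hℓ : ℓ.Prime) (hℓM : ¬ ℓ ∣ M * p) (A : ValuationSubring Qb)
    (hA : A.LiesOverPrime ℓ) {u : UU} (hu : u ∈ VV 𝒜) :
    ∃ (g h₁ : UU) (h₀ : LaurentSeries A), g ∈ FLU M ∧ h₁ ∈ VV 𝒜 ∧ IsUnit h₀ ∧
      (h₁ : LaurentSeries Qb) = inclA A h₀ ∧ u = g * h₁ := by
  have : Fact ℓ.Prime := ⟨hℓ⟩
  have hM : ¬ ℓ ∣ M := fun h => hℓM (h.mul_right p)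
  have hℓp : ¬ ℓ ∣ p := fun h => hℓM (h.mul_left M)
  obtain ⟨m, hm⟩ := exists_isKum_of_mem_VV 𝒜 hu
  have hn : ¬ ℓ ∣ p ^ m := fun h => hℓp (hℓ.dvd_of_dvd_pow h)
  obtain ⟨g, hg, hg0, h₀, hu0, hgh⟩ := hR (p ^ m) ℓ hM hn A hA _ hm
  have hgU : Units.mk0 g hg0 ∈ FLU M := hg
  have hdec : u = Units.mk0 g hg0 * Units.map (inclA A : LaurentSeries A →* LaurentSeries Qb)
      hu0.unit := by
    apply Units.ext
    rw [Units.val_mul, hgh]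
    rfl
  refine ⟨Units.mk0 g hg0, Units.map (inclA A : LaurentSeries A →* LaurentSeries Qb) hu0.unit,
    h₀, hgU, ?_, hu0, rfl, hdec⟩
  have h2 : Units.map (inclA A : LaurentSeries A →* LaurentSeries Qb) hu0.unit
      = (Units.mk0 g hg0)⁻¹ * u := by
    rw [hdec, inv_mul_cancel_left]
  rw [h2]
  exact mul_mem (inv_mem (FLU_le_VV 𝒜 hgU)) hu

theorem es_elem {M p : ℕ} (hp : p.Prime) (𝒜 : AnFamily M p) (hK : KeyLemma M) (hR : GoodRep M)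
    (ℓ : ℕ) [NeZero ℓ] (hℓ : ℓ.Prime) (hℓM : ¬ ℓ ∣ M * p) (A : ValuationSubring Qb)
    (hA : A.LiesOverPrime ℓ) (σ : GQ) (hσ : A.IsFrobeniusAt σ ℓ) {u : UU} (hu : u ∈ VV 𝒜) :
    galU σ (galU σ u) * u ^ ℓ * (heckeU ℓ (galU σ u))⁻¹ ∈ FLU M := by
  have : Fact ℓ.Prime := ⟨hℓ⟩
  have hM : ¬ ℓ ∣ M := fun h => hℓM (h.mul_right p)
  have hℓp : ¬ ℓ ∣ p := fun h => hℓM (h.mul_left M)
  obtain ⟨g, h₁, h₀, hg, hh₁, hu0, hval, rfl⟩ := exists_good_decomp hp 𝒜 hR ℓ hℓ hℓM A hA hu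
  -- the part coming from `g`
  have hEg : galU σ (galU σ g) * g ^ ℓ * (heckeU ℓ (galU σ g))⁻¹ ∈ FLU M :=
    mul_mem (mul_mem (galU_mem_FLU M σ (galU_mem_FLU M σ hg)) (pow_mem hg ℓ))
      (inv_mem (heckeU_mem_FLU 𝒜 ℓ hℓ hM (galU_mem_FLU M σ hg)))
  -- the part coming from `h₁`
  have hEV : galU σ (galU σ h₁) * h₁ ^ ℓ * (heckeU ℓ (galU σ h₁))⁻¹ ∈ VV 𝒜 :=
    mul_mem (mul_mem (galU_mem_VV 𝒜 σ (galU_mem_VV 𝒜 σ hh₁)) (pow_mem hh₁ ℓ))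
      (inv_mem (heckeU_mem_VV 𝒜 ℓ hℓ hM (galU_mem_VV 𝒜 σ hh₁)))
  obtain ⟨R₀, hred, hR₀⟩ := es_formal ℓ A hA σ hσ h₀ hu0
  have hEval : ((galU σ (galU σ h₁) * h₁ ^ ℓ * (heckeU ℓ (galU σ h₁))⁻¹ : UU) :
      LaurentSeries Qb) = inclA A R₀ := by
    rw [Units.val_mul, ← Units.eq_mul_inv_iff_mul_eq, inv_inv, Units.val_mul, Units.val_pow_eq_pow_val,
      coe_galU, coe_galU, coe_heckeU, coe_galU, hval]
    exact hR₀.symm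
  have hEh : galU σ (galU σ h₁) * h₁ ^ ℓ * (heckeU ℓ (galU σ h₁))⁻¹ ∈ FLU M := by
    obtain ⟨m', hm'⟩ := exists_isKum_of_mem_VV 𝒜 hEV
    have hn' : ¬ ℓ ∣ p ^ m' := fun h => hℓp (hℓ.dvd_of_dvd_pow h)
    rw [mem_FLU, hEval]
    rw [hEval] at hm'
    exact hK (p ^ m') ℓ hM hn' A hA R₀ hred hm'
  have hprod : galU σ (galU σ (g * h₁)) * (g * h₁) ^ ℓ * (heckeU ℓ (galU σ (g * h₁)))⁻¹
      = (galU σ (galU σ g) * g ^ ℓ * (heckeU ℓ (galU σ g))⁻¹)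
        * (galU σ (galU σ h₁) * h₁ ^ ℓ * (heckeU ℓ (galU σ h₁))⁻¹) := by
    simp only [map_mul, mul_pow, mul_inv]
    ac_rfl
  rw [hprod]
  exact mul_mem hEg hEh

theorem inertia_elem {M p : ℕ} (hp : p.Prime) (𝒜 : AnFamily M p) (hK : KeyLemma M)
    (hR : GoodRep M) (ℓ : ℕ) (hℓ : ℓ.Prime) (hℓM : ¬ ℓ ∣ M * p) (A : ValuationSubring Qb)
    (hA : A.LiesOverPrime ℓ) (σ : GQ) (hσ : σ ∈ A.inertiaSubgroupIn ℚ) {u : UU}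
    (hu : u ∈ VV 𝒜) : galU σ u * u⁻¹ ∈ FLU M := by
  have : Fact ℓ.Prime := ⟨hℓ⟩
  have hM : ¬ ℓ ∣ M := fun h => hℓM (h.mul_right p)
  have hℓp : ¬ ℓ ∣ p := fun h => hℓM (h.mul_left M)
  obtain ⟨g, h₁, h₀, hg, hh₁, hu0, hval, rfl⟩ := exists_good_decomp hp 𝒜 hR ℓ hℓ hℓM A hA hu
  have hEg : galU σ g * g⁻¹ ∈ FLU M := mul_mem (galU_mem_FLU M σ hg) (inv_mem hg)
  have hEV : galU σ h₁ * h₁⁻¹ ∈ VV 𝒜 := mul_mem (galU_mem_VV 𝒜 σ hh₁) (inv_mem hh₁)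
  obtain ⟨R₀, hred, hR₀⟩ := inertia_formal A σ hσ h₀ hu0
  have hEval : ((galU σ h₁ * h₁⁻¹ : UU) : LaurentSeries Qb) = inclA A R₀ := by
    rw [Units.val_mul, ← Units.eq_mul_inv_iff_mul_eq, inv_inv, coe_galU, hval]
    exact hR₀.symm
  have hEh : galU σ h₁ * h₁⁻¹ ∈ FLU M := by
    obtain ⟨m', hm'⟩ := exists_isKum_of_mem_VV 𝒜 hEV
    have hn' : ¬ ℓ ∣ p ^ m' := fun h => hℓp (hℓ.dvd_of_dvd_pow h)
    rw [mem_FLU, hEval]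
    rw [hEval] at hm'
    exact hK (p ^ m') ℓ hM hn' A hA R₀ hred hm'
  have hprod : galU σ (g * h₁) * (g * h₁)⁻¹ = (galU σ g * g⁻¹) * (galU σ h₁ * h₁⁻¹) := by
    simp only [map_mul, mul_inv]
    ac_rfl
  rw [hprod]
  exact mul_mem hEg hEh

end Fermat.Agent.GR.CB
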