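/-
GR/CB/Psi (package CB-5) : the classes attached to characters.
-/
import Mathlib
import Fermat.Agent.GR.CB.Quot

set_option autoImplicit false

open ModularCurve AlgebraicCurve CongruenceSubgroup
open Fermat.Agent.GAL
open scoped MatrixGroups

noncomputable section

namespace Fermat.Agent.GR.CB

section Psi
variable {M p : ℕ} (𝒜 : AnFamily M p)

/-- the class of a function with character `P` -/
def psi (m : ℕ) (P : HPar M (p ^ m)) : AA M :=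
  cls M (((𝒜.An m).chr_surjective (Multiplicative.ofAdd P)).choose : UU)

/-- two elements of `Van` with the same character have the same class -/
theorem psi_cls_eq_of_chr_eq {n : ℕ} (Pk : AnPackage M n) (u v : Pk.Van) (h : Pk.chr u = Pk.chr v) :
    cls M (u : UU) = cls M (v : UU) := by
  have h1 : Pk.chr (u * v⁻¹) = 1 := by
    rw [map_mul, map_inv, h]
    exact mul_inv_cancel (G := Multiplicative (HPar M n)) (Pk.chr v)
  have h2 := (Pk.chr_eq_one_iff _).mp h1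
  have h3 : cls M ((u : UU) * (v : UU)⁻¹) = 0 := cls_eq_zero_iff.mpr h2
  rw [cls_mul, cls_inv] at h3
  exact sub_eq_zero.mp (by rw [sub_eq_add_neg]; exact h3)

theorem psi_eq_cls (m : ℕ) (P : HPar M (p ^ m)) (u : (𝒜.An m).Van)
    (hu : (𝒜.An m).chr u = Multiplicative.ofAdd P) : psi 𝒜 m P = cls M (u : UU) :=
  psi_cls_eq_of_chr_eq _ _ _
    ((((𝒜.An m).chr_surjective (Multiplicative.ofAdd P)).choose_spec).trans hu.symm)

theorem cls_eq_psi (m : ℕ) (u : UU) (hu : u ∈ (𝒜.An m).Van) :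
    cls M u = psi 𝒜 m (Multiplicative.toAdd ((𝒜.An m).chr ⟨u, hu⟩)) :=
  (psi_eq_cls 𝒜 m _ ⟨u, hu⟩ rfl).symm

theorem psi_Van_le_VV (m : ℕ) : (𝒜.An m).Van ≤ VV 𝒜 := fun u hu =>
  Subgroup.subset_closure ⟨1, m, u, hu, (galU_one u).symm⟩

theorem psi_mem_SS (m : ℕ) (P : HPar M (p ^ m)) : psi 𝒜 m P ∈ SS 𝒜 :=
  mem_SS.mpr ⟨_, psi_Van_le_VV 𝒜 m
    ((𝒜.An m).chr_surjective (Multiplicative.ofAdd P)).choose.2, rfl⟩

theorem psi_add (m : ℕ) (P Q : HPar M (p ^ m)) : psi 𝒜 m (P + Q) = psi 𝒜 m P + psi 𝒜 m Q := by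
  obtain ⟨u, hu⟩ := (𝒜.An m).chr_surjective (Multiplicative.ofAdd P)
  obtain ⟨v, hv⟩ := (𝒜.An m).chr_surjective (Multiplicative.ofAdd Q)
  rw [psi_eq_cls 𝒜 m P u hu, psi_eq_cls 𝒜 m Q v hv,
    psi_eq_cls 𝒜 m (P + Q) (u * v) (by rw [map_mul, hu, hv]; rfl)]
  exact cls_mul M _ _

theorem psi_eq_zero_iff (m : ℕ) (P : HPar M (p ^ m)) : psi 𝒜 m P = 0 ↔ P = 0 := by
  obtain ⟨u, hu⟩ := (𝒜.An m).chr_surjective (Multiplicative.ofAdd P)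
  rw [psi_eq_cls 𝒜 m P u hu, cls_eq_zero_iff, mem_FLU, ← (𝒜.An m).chr_eq_one_iff, hu]
  exact ofAdd_eq_one

theorem psi_succ (m : ℕ) (P : HPar M (p ^ (m + 1))) (P' : HPar M (p ^ m))
    (h : ∀ γ, (P' : Additive (Gamma0 M) →+ ZMod (p ^ m)) γ =
      ZMod.castHom (pow_dvd_pow p (Nat.le_succ m)) (ZMod (p ^ m))
        ((P : Additive (Gamma0 M) →+ ZMod (p ^ (m + 1))) γ)) :
    p • psi 𝒜 (m + 1) P = psi 𝒜 m P' := by
  obtain ⟨u, hu⟩ := (𝒜.An (m + 1)).chr_surjective (Multiplicative.ofAdd P)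
  rw [psi_eq_cls 𝒜 (m + 1) P u hu, ← cls_pow]
  refine (psi_eq_cls 𝒜 m P' ⟨(u : UU) ^ p, 𝒜.pow_mem m u u.2⟩ ?_).symm
  have key : (Multiplicative.toAdd ((𝒜.An m).chr ⟨(u : UU) ^ p, 𝒜.pow_mem m u u.2⟩) :
      HPar M (p ^ m)) = P' := by
    apply Subtype.ext
    ext γ
    have h1 := 𝒜.chr_pow m u u.2 γ
    have h2 : chrFun (𝒜.An (m + 1)) (u : UU) u.2 = (P : Additive (Gamma0 M) →+ ZMod (p ^ (m + 1))) := by
      show ((Multiplicative.toAdd ((𝒜.An (m + 1)).chr ⟨(u : UU), u.2⟩) : HPar M (p ^ (m + 1))) :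
        Additive (Gamma0 M) →+ ZMod (p ^ (m + 1))) = _
      rw [Subtype.coe_eta, hu]
      rfl
    rw [h2, ← h γ] at h1
    exact h1
  rw [← key]
  rfl

include 𝒜 in
theorem psi_heckeU_mem_FLU (ℓ : ℕ) [NeZero ℓ] (hℓ : ℓ.Prime) (hℓM : ¬ ℓ ∣ M) {u : UU}
    (hu : u ∈ FLU M) : heckeU ℓ u ∈ FLU M := by
  have h1 : u ∈ (𝒜.An 0).Van := (𝒜.An 0).FL_le u hu
  have h2 : heckeU ℓ u ∈ (𝒜.An 0).Van := (𝒜.An 0).hecke_mem ℓ hℓ hℓM u h1
  have hs : Subsingleton (ZMod (p ^ 0)) := by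
    rw [pow_zero]; infer_instance
  have hs2 : Subsingleton (Multiplicative (HPar M (p ^ 0))) := by
    refine ⟨fun a b => ?_⟩
    apply Multiplicative.toAdd.injective
    apply Subtype.ext
    ext γ
    exact Subsingleton.elim _ _
  exact ((𝒜.An 0).chr_eq_one_iff ⟨_, h2⟩).mp (Subsingleton.elim _ _)

theorem psi_hecke (m : ℕ) (ℓ : ℕ) (hℓ : ℓ.Prime) (hℓM : ¬ ℓ ∣ M) (P Q : HPar M (p ^ m))
    (h : (Q : Additive (Gamma0 M) →+ ZMod (p ^ m)) =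
      heckeCoh M ℓ (P : Additive (Gamma0 M) →+ ZMod (p ^ m))) :
    tA M ℓ (psi 𝒜 m P) = psi 𝒜 m Q := by
  have : NeZero ℓ := ⟨hℓ.ne_zero⟩
  obtain ⟨u, hu⟩ := (𝒜.An m).chr_surjective (Multiplicative.ofAdd P)
  rw [psi_eq_cls 𝒜 m P u hu, tA_cls M ℓ (fun v hv => psi_heckeU_mem_FLU 𝒜 ℓ hℓ hℓM hv)]
  refine (psi_eq_cls 𝒜 m Q ⟨heckeU ℓ (u : UU), (𝒜.An m).hecke_mem ℓ hℓ hℓM u u.2⟩ ?_).symm
  have key : (Multiplicative.toAdd ((𝒜.An m).chr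
      ⟨heckeU ℓ (u : UU), (𝒜.An m).hecke_mem ℓ hℓ hℓM u u.2⟩) : HPar M (p ^ m)) = Q := by
    apply Subtype.ext
    rw [h]
    have h1 := (𝒜.An m).chr_hecke ℓ hℓ hℓM u
    rw [hu] at h1
    exact h1
  rw [← key]
  rfl

end Psi

end Fermat.Agent.GR.CB

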