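/-
GR/CB (package CB-6): reduction `Hom_par(Γ₀(M), ℤ) → Hom_par(Γ₀(M), ℤ/n)`.
-/
import Mathlib
import Fermat.Agent.GR.CB.Quot
import Fermat.Agent.GAL.HK.CohBasic

set_option autoImplicit false

open ModularCurve AlgebraicCurve CongruenceSubgroup
open Fermat.Agent.GAL
open scoped MatrixGroups

noncomputable section

namespace Fermat.Agent.GR.CB

/-- reduction modulo `n` -/
def redL (M n : ℕ) (x : LL0 M) : HPar M n :=
  ⟨(Int.castAddHom (ZMod n)).comp (x : Additive (Gamma0 M) →+ ℤ), fun γ hγ => by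
    show ((x : Additive (Gamma0 M) →+ ℤ) (Additive.ofMul γ) : ZMod n) = 0
    rw [x.2 γ hγ, Int.cast_zero]⟩

theorem redL_apply (M n : ℕ) (x : LL0 M) (γ : Additive (Gamma0 M)) :
    (redL M n x : Additive (Gamma0 M) →+ ZMod n) γ =
      (((x : Additive (Gamma0 M) →+ ℤ) γ : ℤ) : ZMod n) := rfl

theorem redL_add (M n : ℕ) (x y : LL0 M) : redL M n (x + y) = redL M n x + redL M n y := by
  apply Subtype.ext
  refine AddMonoidHom.ext fun γ => ?_
  show (((x : Additive (Gamma0 M) →+ ℤ) γ + (y : Additive (Gamma0 M) →+ ℤ) γ : ℤ) : ZMod n) = _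
  rw [Int.cast_add]
  rfl

theorem redL_eq_zero_iff (M n : ℕ) (x : LL0 M) : redL M n x = 0 ↔ ∃ y : LL0 M, x = n • y := by
  constructor
  · intro h
    have hdvd : ∀ γ, (n : ℤ) ∣ (x : Additive (Gamma0 M) →+ ℤ) γ := by
      intro γ
      rw [← ZMod.intCast_zmod_eq_zero_iff_dvd, ← redL_apply, h]
      rfl
    rcases Nat.eq_zero_or_pos n with rfl | hn
    · refine ⟨0, ?_⟩
      apply Subtype.ext
      refine AddMonoidHom.ext fun γ => ?_
      have := hdvd γ
      rw [Nat.cast_zero, zero_dvd_iff] at this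
      rw [this]
      simp
    · have hn0 : (n : ℤ) ≠ 0 := by exact_mod_cast hn.ne'
      choose f hf using hdvd
      let y₀ : Additive (Gamma0 M) →+ ℤ :=
        { toFun := f
          map_zero' := by
            have := hf 0
            rw [map_zero] at this
            rcases mul_eq_zero.1 this.symm with h1 | h1
            · exact absurd h1 hn0
            · exact h1
          map_add' := fun a b => by
            apply mul_left_cancel₀ hn0
            rw [mul_add, ← hf, ← hf, ← hf, map_add] }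
      have hy₀ : y₀ ∈ LL0 M := by
        intro γ hγ
        have h1 := hf (Additive.ofMul γ)
        rw [x.2 γ hγ] at h1
        rcases mul_eq_zero.1 h1.symm with h2 | h2
        · exact absurd h2 hn0
        · exact h2
      refine ⟨⟨y₀, hy₀⟩, ?_⟩
      apply Subtype.ext
      refine AddMonoidHom.ext fun γ => ?_
      show (x : Additive (Gamma0 M) →+ ℤ) γ = n • f γ
      rw [hf γ, nsmul_eq_mul]
  · rintro ⟨y, rfl⟩
    apply Subtype.ext
    refine AddMonoidHom.ext fun γ => ?_
    show (((n • (y : Additive (Gamma0 M) →+ ℤ) γ : ℤ)) : ZMod n) = 0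
    rw [nsmul_eq_mul, Int.cast_mul, Int.cast_natCast, ZMod.natCast_self, zero_mul]

theorem redL_cast (M p m : ℕ) (x : LL0 M) (γ : Additive (Gamma0 M)) :
    (redL M (p ^ m) x : Additive (Gamma0 M) →+ ZMod (p ^ m)) γ =
      ZMod.castHom (pow_dvd_pow p (Nat.le_succ m)) (ZMod (p ^ m))
        ((redL M (p ^ (m + 1)) x : Additive (Gamma0 M) →+ ZMod (p ^ (m + 1))) γ) := by
  rw [redL_apply, redL_apply, map_intCast]

theorem redL_hecke (M n ℓ : ℕ) (hℓ : ℓ.Prime) (hℓM : ¬ ℓ ∣ M) (x y : LL0 M)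
    (h : (y : Additive (Gamma0 M) →+ ℤ) = heckeCoh M ℓ (x : Additive (Gamma0 M) →+ ℤ)) :
    (redL M n y : Additive (Gamma0 M) →+ ZMod n) =
      heckeCoh M ℓ (redL M n x : Additive (Gamma0 M) →+ ZMod n) := by
  show (Int.castAddHom (ZMod n)).comp (y : Additive (Gamma0 M) →+ ℤ) =
    heckeCoh M ℓ ((Int.castAddHom (ZMod n)).comp (x : Additive (Gamma0 M) →+ ℤ))
  rw [heckeCoh_comp hℓ hℓM, h]

end Fermat.Agent.GR.CB
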