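/-
GR/CB-2 : every element of `FL Qb M` is fixed by a finite level; `n`-th roots of `1` are constants;
Kummer classes are smooth.
-/
import Mathlib
import Fermat.Agent.GR.CB.Quot

set_option autoImplicit false

open ModularCurve AlgebraicCurve CongruenceSubgroup
open Fermat.Agent.GAL
open scoped MatrixGroups

noncomputable section

namespace Fermat.Agent.GR.CB

theorem exists_level_FL (M : ℕ) {f : LaurentSeries Qb} (hf : f ∈ FL Qb M) :
    ∃ L : IntermediateField ℚ Qb, FiniteDimensional ℚ L ∧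
      ∀ σ : GQ, (∀ x ∈ L, σ x = x) → galS σ f = f := by
  have halg : Algebra.IsAlgebraic ℚ Qb := AlgebraicClosure.isAlgebraic ℚ
  rw [mem_laurentBaseChange_iff] at hf
  induction hf using Subfield.closure_induction with
  | mem y hy =>
    rcases hy with ⟨a, rfl⟩ | ⟨z, _, rfl⟩
    · refine ⟨IntermediateField.adjoin ℚ {a},
        IntermediateField.adjoin.finiteDimensional
          (Algebra.IsAlgebraic.isAlgebraic (R := ℚ) a).isIntegral, ?_⟩
      intro σ hσ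
      show coeffMap (σ : Qb →+* Qb) _ = _
      rw [coeffMap_algebraMap]
      congr 1
      exact hσ a (IntermediateField.mem_adjoin_simple_self ℚ a)
    · exact ⟨⊥, inferInstance, fun σ _ => coeffMap_coeffEmb σ z⟩
  | one => exact ⟨⊥, inferInstance, fun σ _ => map_one _⟩
  | add x y _ _ hx hy =>
    obtain ⟨L₁, h₁, H₁⟩ := hx
    obtain ⟨L₂, h₂, H₂⟩ := hy
    refine ⟨L₁ ⊔ L₂, IntermediateField.finiteDimensional_sup L₁ L₂, fun σ hσ => ?_⟩
    rw [map_add, H₁ σ fun a ha => hσ a ((le_sup_left : L₁ ≤ L₁ ⊔ L₂) ha),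
      H₂ σ fun a ha => hσ a ((le_sup_right : L₂ ≤ L₁ ⊔ L₂) ha)]
  | neg x _ hx =>
    obtain ⟨L₁, h₁, H₁⟩ := hx
    exact ⟨L₁, h₁, fun σ hσ => by rw [map_neg, H₁ σ hσ]⟩
  | inv x _ hx =>
    obtain ⟨L₁, h₁, H₁⟩ := hx
    exact ⟨L₁, h₁, fun σ hσ => by rw [map_inv₀, H₁ σ hσ]⟩
  | mul x y _ _ hx hy =>
    obtain ⟨L₁, h₁, H₁⟩ := hx
    obtain ⟨L₂, h₂, H₂⟩ := hy
    refine ⟨L₁ ⊔ L₂, IntermediateField.finiteDimensional_sup L₁ L₂, fun σ hσ => ?_⟩
    rw [map_mul, H₁ σ fun a ha => hσ a ((le_sup_left : L₁ ≤ L₁ ⊔ L₂) ha),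
      H₂ σ fun a ha => hσ a ((le_sup_right : L₂ ≤ L₁ ⊔ L₂) ha)]

theorem mem_FL_of_pow_eq_one (M : ℕ) {n : ℕ} (hn : n ≠ 0) {x : LaurentSeries Qb}
    (hx : x ^ n = 1) : x ∈ FL Qb M := by
  have hint : IsIntegral Qb x :=
    ⟨Polynomial.X ^ n - Polynomial.C 1, Polynomial.monic_X_pow_sub_C 1 hn, by simp [hx]⟩
  have hdeg := IsAlgClosed.degree_eq_one_of_irreducible Qb (minpoly.irreducible hint)
  obtain ⟨a, rfl⟩ := minpoly.mem_range_of_degree_eq_one Qb x hdeg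
  exact (FL Qb M).algebraMap_mem a

theorem exists_level_of_pow_mem (M : ℕ) {n : ℕ} (hn : n ≠ 0) (u : UU)
    (hu : (u : LaurentSeries Qb) ^ n ∈ FL Qb M) :
    ∃ L : IntermediateField ℚ Qb, FiniteDimensional ℚ L ∧
      ∀ σ : GQ, (∀ x ∈ L, σ x = x) → galU σ u * u⁻¹ ∈ FLU M := by
  obtain ⟨L, hL, H⟩ := exists_level_FL M hu
  refine ⟨L, hL, fun σ hσ => ?_⟩
  rw [mem_FLU]
  apply mem_FL_of_pow_eq_one M hn
  have h1 := H σ hσ
  rw [map_pow] at h1
  rw [Units.val_mul, coe_galU, mul_pow, h1, ← mul_pow, Units.mul_inv, one_pow]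

end Fermat.Agent.GR.CB
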