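/-
GR/CB-7 : assembly of `Adic.Core M p` from the CB packages.
-/
import Mathlib
import Fermat.Agent.GR.CB.Smooth
import Fermat.Agent.GR.CB.VV
import Fermat.Agent.GR.CB.ES
import Fermat.Agent.GR.CB.Psi
import Fermat.Agent.GR.CB.RedL
import Fermat.Agent.GAL.Mod.ES
import Fermat.Agent.GAL.ESR.Field

set_option autoImplicit false

open ModularCurve AlgebraicCurve CongruenceSubgroup
open Fermat.Agent.GAL
open scoped MatrixGroups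

noncomputable section

namespace Fermat.Agent.GR.CB

section Assembly

variable {M p : ℕ} (𝒜 : AnFamily M p)

theorem gA_mem_SS (σ : GQ) : ∀ x ∈ SS 𝒜, gA M σ x ∈ SS 𝒜 := by
  intro x hx
  obtain ⟨u, hu, rfl⟩ := mem_SS.mp hx
  rw [gA_cls]
  exact mem_SS.mpr ⟨_, galU_mem_VV 𝒜 σ hu, rfl⟩

include 𝒜 in
theorem tA_cls' (ℓ : ℕ) (hℓ : ℓ.Prime) (hℓM : ¬ ℓ ∣ M) (u : UU) :
    have : NeZero ℓ := ⟨hℓ.ne_zero⟩
    tA M ℓ (cls M u) = cls M (heckeU ℓ u) := by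
  have : NeZero ℓ := ⟨hℓ.ne_zero⟩
  exact tA_cls M ℓ (fun u hu => heckeU_mem_FLU 𝒜 ℓ hℓ hℓM hu) u

theorem tA_mem_SS (ℓ : ℕ) (hℓ : ℓ.Prime) (hℓM : ¬ ℓ ∣ M) : ∀ x ∈ SS 𝒜, tA M ℓ x ∈ SS 𝒜 := by
  have : NeZero ℓ := ⟨hℓ.ne_zero⟩
  intro x hx
  obtain ⟨u, hu, rfl⟩ := mem_SS.mp hx
  rw [tA_cls' 𝒜 ℓ hℓ hℓM]
  exact mem_SS.mpr ⟨_, heckeU_mem_VV 𝒜 ℓ hℓ hℓM hu, rfl⟩

/-- the Galois action on `SS`. -/
def actS : GQ →* Module.End ℤ (SS 𝒜) where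
  toFun σ := (gA M σ).restrict (gA_mem_SS 𝒜 σ)
  map_one' := by
    ext x
    simp [LinearMap.restrict_apply]
  map_mul' σ τ := by
    ext x
    simp [LinearMap.restrict_apply]

@[simp] theorem coe_actS (σ : GQ) (x : SS 𝒜) : ((actS 𝒜 σ x : SS 𝒜) : AA M) = gA M σ x := rfl

open Classical in
/-- the Hecke operators on `SS`. -/
def TS (ℓ : ℕ) : Module.End ℤ (SS 𝒜) :=
  if h : ℓ.Prime ∧ ¬ ℓ ∣ M then (tA M ℓ).restrict (tA_mem_SS 𝒜 ℓ h.1 h.2) else 0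

theorem coe_TS (ℓ : ℕ) (hℓ : ℓ.Prime) (hℓM : ¬ ℓ ∣ M) (x : SS 𝒜) :
    ((TS 𝒜 ℓ x : SS 𝒜) : AA M) = tA M ℓ x := by
  rw [TS, dif_pos ⟨hℓ, hℓM⟩]
  rfl

theorem exists_cls_eq (x : SS 𝒜) : ∃ u ∈ VV 𝒜, cls M u = (x : AA M) := mem_SS.mp x.2

/-- the maps `κ m`. -/
def kappaS (m : ℕ) : LL0 M →ₗ[ℤ] SS 𝒜 :=
  AddMonoidHom.toIntLinearMap
    { toFun := fun x => ⟨psi 𝒜 m (redL M (p ^ m) x), psi_mem_SS 𝒜 m _⟩
      map_zero' := by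
        apply Subtype.ext
        show psi 𝒜 m (redL M (p ^ m) 0) = 0
        rw [psi_eq_zero_iff, redL_eq_zero_iff]
        exact ⟨0, by simp⟩
      map_add' := fun x y => by
        apply Subtype.ext
        show psi 𝒜 m (redL M (p ^ m) (x + y)) = _
        rw [redL_add, psi_add]
        rfl }

@[simp] theorem coe_kappaS (m : ℕ) (x : LL0 M) :
    ((kappaS 𝒜 m x : SS 𝒜) : AA M) = psi 𝒜 m (redL M (p ^ m) x) := rfl

end Assembly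

/-- the assembly, with Eichler–Shimura and inertia as explicit hypotheses (so that any form of the
key lemma can be plugged in). -/
theorem nonempty_core_of {M p : ℕ} [NeZero M] (hp : p.Prime) (𝒜 : AnFamily M p)
    (hes : ∀ (ℓ : ℕ) [NeZero ℓ], ℓ.Prime → ¬ ℓ ∣ M * p → ∀ A : ValuationSubring Qb,
      A.LiesOverPrime ℓ → ∀ σ : GQ, A.IsFrobeniusAt σ ℓ → ∀ u ∈ VV 𝒜,
        galU σ (galU σ u) * u ^ ℓ * (heckeU ℓ (galU σ u))⁻¹ ∈ FLU M)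
    (hin : ∀ ℓ : ℕ, ℓ.Prime → ¬ ℓ ∣ M * p → ∀ A : ValuationSubring Qb,
      A.LiesOverPrime ℓ → ∀ σ ∈ A.inertiaSubgroupIn ℚ, ∀ u ∈ VV 𝒜, galU σ u * u⁻¹ ∈ FLU M)
    (hHK : HKInput M) : Nonempty (Adic.Core M p) := by
  classical
  obtain ⟨ι, hιinj, hι⟩ := hHK.exists_ι
  have := hHK.free
  have := hHK.finite
  refine ⟨{
    W := SS 𝒜
    tors := ?_
    act := actS 𝒜
    smooth := ?_
    T := TS 𝒜
    T_act := ?_
    inertia := ?_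
    frob := ?_
    L0 := LL0 M
    T0 := fun ℓ => if h : ℓ.Prime ∧ ¬ ℓ ∣ M then
      ι (CuspForm.heckeAlgebra.T h.1 h.2 (Adic.not_mem_badSet h.2)) else 0
    κ := kappaS 𝒜
    κ_ker := ?_
    κ_succ := ?_
    κ_T := ?_
    ι := ι
    ι_inj := hιinj
    ι_T := ?_ }⟩
  · -- tors
    intro x
    obtain ⟨u, hu, hx⟩ := exists_cls_eq 𝒜 x
    obtain ⟨m, hm⟩ := exists_isKum_of_mem_VV 𝒜 hu
    refine ⟨m, Subtype.ext ?_⟩
    obtain ⟨-, hf, -⟩ := hm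
    show (p ^ m) • (x : AA M) = 0
    rw [← hx, ← cls_pow, cls_eq_zero_iff, mem_FLU, Units.val_pow_eq_pow_val]
    exact hf
  · -- smooth
    intro x
    obtain ⟨u, hu, hx⟩ := exists_cls_eq 𝒜 x
    obtain ⟨m, hm⟩ := exists_isKum_of_mem_VV 𝒜 hu
    obtain ⟨-, hf, -⟩ := hm
    have hp0 : p ^ m ≠ 0 := pow_ne_zero _ hp.ne_zero
    obtain ⟨L, hL, H⟩ := exists_level_of_pow_mem M hp0 u hf
    refine ⟨L, hL, fun σ hσ => Subtype.ext ?_⟩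
    rw [coe_actS, ← hx, gA_cls]
    have h1 := H σ hσ
    rw [← cls_eq_zero_iff, cls_mul, cls_inv] at h1
    exact sub_eq_zero.mp (by rw [sub_eq_add_neg]; exact h1)
  · -- T_act
    intro ℓ hℓ hℓM σ
    have : NeZero ℓ := ⟨hℓ.ne_zero⟩
    ext x
    obtain ⟨u, hu, hx⟩ := exists_cls_eq 𝒜 x
    rw [Module.End.mul_apply, Module.End.mul_apply, coe_TS 𝒜 ℓ hℓ hℓM, coe_actS, coe_actS,
      coe_TS 𝒜 ℓ hℓ hℓM, ← hx, gA_cls, tA_cls' 𝒜 ℓ hℓ hℓM, tA_cls' 𝒜 ℓ hℓ hℓM, gA_cls]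
    congr 1
    apply Units.ext
    rw [coe_heckeU, coe_galU, coe_galU, coe_heckeU, galS_heckeS]
  · -- inertia
    intro ℓ hℓ hℓM A hA σ hσ
    ext x
    obtain ⟨u, hu, hx⟩ := exists_cls_eq 𝒜 x
    rw [coe_actS, ← hx, gA_cls]
    have h1 := hin ℓ hℓ hℓM A hA σ hσ u hu
    rw [← cls_eq_zero_iff, cls_mul, cls_inv] at h1
    rw [Module.End.one_apply, ← hx]
    exact sub_eq_zero.mp (by rw [sub_eq_add_neg]; exact h1)
  · -- frob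
    intro ℓ hℓ hℓM A hA σ hσ
    have : NeZero ℓ := ⟨hℓ.ne_zero⟩
    have hℓM' : ¬ ℓ ∣ M := fun h => hℓM (Dvd.dvd.mul_right h p)
    ext x
    obtain ⟨u, hu, hx⟩ := exists_cls_eq 𝒜 x
    have h1 := hes ℓ hℓ hℓM A hA σ hσ u hu
    rw [← cls_eq_zero_iff, cls_mul, cls_mul, cls_inv, cls_pow] at h1
    simp only [LinearMap.add_apply, LinearMap.sub_apply, Module.End.mul_apply,
      LinearMap.zero_apply, Submodule.coe_add, Submodule.coe_sub, Submodule.coe_zero, coe_actS,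
      coe_TS 𝒜 ℓ hℓ hℓM']
    rw [Module.End.natCast_apply, Submodule.coe_smul_of_tower, ← hx, gA_cls, gA_cls,
      tA_cls' 𝒜 ℓ hℓ hℓM', ← h1]
    abel
  · -- κ_ker
    intro m x
    rw [← redL_eq_zero_iff, ← psi_eq_zero_iff 𝒜 m, ← coe_kappaS, Submodule.coe_eq_zero]
  · -- κ_succ
    intro m x
    apply Subtype.ext
    show p • psi 𝒜 (m + 1) (redL M (p ^ (m + 1)) x) = psi 𝒜 m (redL M (p ^ m) x)
    exact psi_succ 𝒜 m _ _ (fun γ => redL_cast M p m x γ)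
  · -- κ_T
    intro ℓ hℓ hℓM m x
    apply Subtype.ext
    rw [coe_TS 𝒜 ℓ hℓ hℓM, coe_kappaS, coe_kappaS, dif_pos ⟨hℓ, hℓM⟩]
    symm
    apply psi_hecke 𝒜 m ℓ hℓ hℓM
    exact redL_hecke M (p ^ m) ℓ hℓ hℓM x _ (hι ℓ hℓ hℓM x)
  · -- ι_T
    intro ℓ hℓ hℓM
    rw [dif_pos ⟨hℓ, hℓM⟩]

theorem nonempty_core {M p : ℕ} [NeZero M] (hp : p.Prime) (𝒜 : AnFamily M p) (hK : KeyLemma M)
    (hR : GoodRep M) (hHK : HKInput M) : Nonempty (Adic.Core M p) :=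
  nonempty_core_of hp 𝒜
    (fun ℓ _ hℓ hℓM A hA σ hσ _ hu => es_elem hp 𝒜 hK hR ℓ hℓ hℓM A hA σ hσ hu)
    (fun ℓ hℓ hℓM A hA σ hσ _ hu => inertia_elem hp 𝒜 hK hR ℓ hℓ hℓM A hA σ hσ hu) hHK

/-- the assembly from the OFFICIAL contract of block KL (`GAL.KeyLemmaStatement`, Gauss form). -/
theorem nonempty_core_gauss {M p : ℕ} [NeZero M] (hp : p.Prime) (hM : AdmLevel M)
    (𝒜 : AnFamily M p) (hK : KeyLemmaStatement) (hHK : HKInput M) : Nonempty (Adic.Core M p) := by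
  have hdvd : ∀ {ℓ : ℕ}, ℓ.Prime → ¬ ℓ ∣ M * p → ∀ m : ℕ, ¬ ℓ ∣ p ^ m := fun hℓ h m h' =>
    h (Dvd.dvd.mul_left (hℓ.dvd_of_dvd_pow h') M)
  refine nonempty_core_of hp 𝒜 ?_ ?_ hHK
  · intro ℓ _ hℓ hℓM A hA σ hσ u hu
    have hℓM' : ¬ ℓ ∣ M := fun h => hℓM (Dvd.dvd.mul_right h p)
    obtain ⟨m, hm⟩ := exists_isKum_of_mem_VV 𝒜 hu
    have h1 := es_mem hK (NeZero.ne M) hM hℓ hℓM' (hdvd hℓ hℓM m) A hA σ hσ hm
      (Fermat.Agent.GAL.IsKum.heckeS M ℓ hℓ hℓM' (hm.galS σ))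
    rw [mem_FLU]
    simpa [div_eq_mul_inv] using h1
  · intro ℓ hℓ hℓM A hA σ hσ u hu
    have hℓM' : ¬ ℓ ∣ M := fun h => hℓM (Dvd.dvd.mul_right h p)
    obtain ⟨m, hm⟩ := exists_isKum_of_mem_VV 𝒜 hu
    have h1 := inertia_mem hK (NeZero.ne M) hM hℓ hℓM' (hdvd hℓ hℓM m) A hA σ hσ hm
    rw [mem_FLU]
    simpa [div_eq_mul_inv] using h1

end Fermat.Agent.GR.CB
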