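/-
GR/CB : bridge between the official GAL contracts (`GAL/ModuleDefs.lean`) and the inputs of
CoreBuild:  `AnSystem M` (all exponents) gives `AnFamily M p` (exponents `p ^ m`).
-/
import Mathlib
import Fermat.Agent.GR.CB.Defs
import Fermat.Agent.GAL.ModuleDefs

set_option autoImplicit false

open ModularCurve AlgebraicCurve CongruenceSubgroup
open Fermat.Agent.GAL

noncomputable section

namespace Fermat.Agent.GR.CB

/-- the `p`-power part of a compatible system of analytic packages -/
def anFamilyOfAnSystem {M p : ℕ} (hp : p ≠ 0) (𝒮 : AnSystem M) : AnFamily M p where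
  An m := 𝒮.pk (p ^ m) (pow_ne_zero m hp)
  pow_mem m u hu := 𝒮.pow_mem (p ^ m) p (pow_ne_zero m hp) hp u hu
  chr_pow m u hu γ := by
    have h := 𝒮.chr_pow (p ^ m) p (pow_ne_zero m hp) hp ⟨u, hu⟩
    exact DFunLike.congr_fun h γ

theorem nonempty_anFamily_of_anSystem {M p : ℕ} (hp : p ≠ 0) (h : Nonempty (AnSystem M)) :
    Nonempty (AnFamily M p) :=
  h.elim fun 𝒮 => ⟨anFamilyOfAnSystem hp 𝒮⟩

end Fermat.Agent.GR.CB
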